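import Fermat.Agent.DedekindOrdinateGaps.Rates
import Fermat.Agent.DedekindZeroFree.Gamma
import Fermat.Agent.DedekindHadamard.Stark

/-!
# The Gamma factors on the two edges of the critical strip

`|Γℝ (1 + ε + i y) / Γℝ (-ε + i y)|` and `|Γℝ (2 + ε + i y) / Γℝ (1 - ε + i y)|` are at most
`e ^ 20 (|y| + 3) ^ (1/2 + ε)`, from `re ψ = log |y| + O (1)`.
-/

set_option autoImplicit false
set_option linter.style.haveILetI false

noncomputable section

open Complex Filter Topology Set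
open FA.FamilyZeroDensity FA.DedekindHadamard
open scoped Real

namespace FA.DedekindConvexity

theorem hasDerivAt_log_Gammaℝ {u : ℝ} (hu : 0 < u) (y : ℝ) :
    HasDerivAt (fun v : ℝ => Real.log ‖Gammaℝ (pt v y)‖)
      (((Complex.digamma (pt u y / 2)).re - Real.log π) / 2) u := by
  have hs : 0 < (pt u y).re := by rwa [pt_re]
  have hne := Gammaℝ_ne_zero_of_re_pos hs
  have h : HasDerivAt (fun v : ℝ => Gammaℝ (pt v y))
      (Gammaℝ (pt u y) * ((Complex.digamma (pt u y / 2) - Real.log π) / 2)) u := by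
    have h1 : HasDerivAt (fun z : ℂ => Gammaℝ (z + y * I))
        (Gammaℝ (pt u y) * ((Complex.digamma (pt u y / 2) - Real.log π) / 2)) (u : ℂ) :=
      (hasDerivAt_Gammaℝ_digamma hs).comp_add_const (u : ℂ) (y * I)
    exact h1.comp_ofReal
  have hr := Complex.reCLM.hasFDerivAt.comp_hasDerivAt u h
  have hi := Complex.imCLM.hasFDerivAt.comp_hasDerivAt u h
  have hn : Complex.normSq (Gammaℝ (pt u y)) ≠ 0 := (Complex.normSq_pos.2 hne).ne'
  have hsq : HasDerivAt (fun v : ℝ => Complex.normSq (Gammaℝ (pt v y)))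
      (Complex.normSq (Gammaℝ (pt u y)) * ((Complex.digamma (pt u y / 2)).re - Real.log π)) u := by
    refine ((hr.fun_mul hr).fun_add (hi.fun_mul hi)).congr_of_eventuallyEq
      (Eventually.of_forall fun v => Complex.normSq_apply _) |>.congr_deriv ?_
    simp [Complex.mul_re, Complex.normSq_apply]
    ring
  refine ((hsq.log hn).div_const 2).congr_of_eventuallyEq (Eventually.of_forall fun v => ?_)
    |>.congr_deriv ?_
  · show Real.log ‖Gammaℝ (pt v y)‖ = Real.log (Complex.normSq (Gammaℝ (pt v y))) / 2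
    rw [Complex.normSq_eq_norm_sq, Real.log_pow]
    push_cast
    ring
  · field_simp

theorem deriv_log_Gammaℝ_bounds {u : ℝ} (h1 : 3 / 4 ≤ u) (h2 : u ≤ 3) (y : ℝ) :
    (Real.log (|y| + 3) - 23) / 2 ≤ deriv (fun v : ℝ => Real.log ‖Gammaℝ (pt v y)‖) u ∧
      deriv (fun v : ℝ => Real.log ‖Gammaℝ (pt v y)‖) u ≤ (Real.log (|y| + 3) + 20) / 2 := by
  rw [(hasDerivAt_log_Gammaℝ (by linarith) y).deriv]
  have h2' : (pt u y / 2).re = u / 2 := by rw [Complex.div_ofNat_re, pt_re]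
  have h := (Complex.abs_re_le_norm _).trans (FA.PairCorrelation.norm_digamma_sub_log_le
    (z := pt u y / 2) (by rw [h2']; linarith) (by rw [h2']; linarith))
  rw [Complex.sub_re, Complex.ofReal_re, ← logDeriv_apply, ← Complex.digamma_def,
    Complex.div_ofNat_im, pt_im, abs_div, abs_two, abs_le] at h
  have hy : 0 ≤ |y| := abs_nonneg y
  have l1 : Real.log (|y| / 2 + 2) ≤ Real.log (|y| + 3) :=
    Real.log_le_log (by positivity) (by linarith)
  have l2 : Real.log (|y| + 3) ≤ Real.log 2 + Real.log (|y| / 2 + 2) := by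
    rw [← Real.log_mul two_ne_zero (by positivity)]
    exact Real.log_le_log (by positivity) (by linarith)
  have hl2 : Real.log 2 ≤ 1 := (Real.log_le_iff_le_exp two_pos).2 (by
    linarith [Real.add_one_le_exp 1])
  have hπ0 : 0 ≤ Real.log π := Real.log_nonneg (by linarith [Real.pi_gt_three])
  have hπ : Real.log π ≤ 2 := by
    rw [Real.log_le_iff_le_exp Real.pi_pos, show (2 : ℝ) = 1 + 1 by norm_num, Real.exp_add]
    nlinarith [Real.exp_one_gt_d9, Real.pi_lt_d2]
  constructor <;> linarith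

theorem log_Gammaℝ_sub_bounds {u v : ℝ} (h1 : 3 / 4 ≤ u) (huv : u ≤ v) (h2 : v ≤ 3) (y : ℝ) :
    (Real.log (|y| + 3) - 23) / 2 * (v - u) ≤
        Real.log ‖Gammaℝ (pt v y)‖ - Real.log ‖Gammaℝ (pt u y)‖ ∧
      Real.log ‖Gammaℝ (pt v y)‖ - Real.log ‖Gammaℝ (pt u y)‖ ≤
        (Real.log (|y| + 3) + 20) / 2 * (v - u) := by
  have hc : ContinuousOn (fun w : ℝ => Real.log ‖Gammaℝ (pt w y)‖) (Icc u v) := fun w hw =>
    (hasDerivAt_log_Gammaℝ (by linarith [hw.1]) y).continuousAt.continuousWithinAt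
  have hd : DifferentiableOn ℝ (fun w : ℝ => Real.log ‖Gammaℝ (pt w y)‖) (interior (Icc u v)) :=
    fun w hw => by
      rw [interior_Icc] at hw
      exact (hasDerivAt_log_Gammaℝ (by linarith [hw.1]) y).differentiableAt.differentiableWithinAt
  have hb : ∀ w ∈ interior (Icc u v), (Real.log (|y| + 3) - 23) / 2 ≤
      deriv (fun w : ℝ => Real.log ‖Gammaℝ (pt w y)‖) w ∧
      deriv (fun w : ℝ => Real.log ‖Gammaℝ (pt w y)‖) w ≤ (Real.log (|y| + 3) + 20) / 2 :=
    fun w hw => by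
      rw [interior_Icc] at hw
      exact deriv_log_Gammaℝ_bounds (by linarith [hw.1]) (by linarith [hw.2]) y
  exact ⟨(convex_Icc u v).mul_sub_le_image_sub_of_le_deriv hc hd (fun w hw => (hb w hw).1)
      u (left_mem_Icc.2 huv) v (right_mem_Icc.2 huv) huv,
    (convex_Icc u v).image_sub_le_mul_sub_of_deriv_le hc hd (fun w hw => (hb w hw).2)
      u (left_mem_Icc.2 huv) v (right_mem_Icc.2 huv) huv⟩

/-- **The two ratios.** -/
theorem Gammaℝ_ratio_bounds {ε : ℝ} (hε : 0 < ε) (hε1 : ε ≤ 1 / 4) (y : ℝ) :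
    ‖Gammaℝ (pt (1 + ε) y)‖ * ‖(Gammaℝ (pt (-ε) y))⁻¹‖ ≤
        Real.exp 20 * (|y| + 3) ^ (1 / 2 + ε) ∧
      ‖Gammaℝ (pt (2 + ε) y)‖ * ‖(Gammaℝ (pt (1 - ε) y))⁻¹‖ ≤
        Real.exp 20 * (|y| + 3) ^ (1 / 2 + ε) := by
  have hP : 0 < |y| + 3 := by positivity
  have hl : 1 ≤ Real.log (|y| + 3) := by
    rw [Real.le_log_iff_exp_le hP]
    linarith [Real.exp_one_lt_d9, abs_nonneg y]
  have pos : ∀ {u : ℝ}, 0 < u → 0 < ‖Gammaℝ (pt u y)‖ := fun {u} hu =>
    norm_pos_iff.2 (Gammaℝ_ne_zero_of_re_pos (by rwa [pt_re]))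
  refine ⟨?_, ?_⟩
  · have hstep : ‖(Gammaℝ (pt (-ε) y))⁻¹‖ =
        ‖pt (-ε) y‖ / (2 * π) * ‖(Gammaℝ (pt (2 - ε) y))⁻¹‖ := by
      have h := FA.DedekindZF.norm_step ((-ε : ℝ) : ℂ) y
      rw [show ((-ε : ℝ) : ℂ) + 2 = ((2 - ε : ℝ) : ℂ) by push_cast; ring] at h
      exact h
    obtain ⟨h1, -⟩ := log_Gammaℝ_sub_bounds (u := 1 + ε) (v := 2 - ε) (by linarith) (by linarith)
      (by linarith) y
    have hn : ‖pt (-ε) y‖ / (2 * π) ≤ |y| + 3 := by
      refine (div_le_self (norm_nonneg _) (by linarith [Real.pi_gt_three])).trans ?_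
      refine (Complex.norm_le_abs_re_add_abs_im _).trans ?_
      rw [pt_re, pt_im, abs_neg, abs_of_pos hε]
      linarith
    rw [hstep, ← mul_assoc, mul_comm ‖Gammaℝ (pt (1 + ε) y)‖, mul_assoc, norm_inv]
    refine (mul_le_mul_of_nonneg_right hn (by positivity)).trans ?_
    rw [← Real.exp_log (pos (show 0 < 1 + ε by linarith)),
      ← Real.exp_log (pos (show 0 < 2 - ε by linarith)), ← Real.exp_neg, ← Real.exp_add,
      Real.rpow_def_of_pos hP, ← Real.exp_add]
    nth_rw 1 [← Real.exp_log hP]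
    rw [← Real.exp_add]
    refine Real.exp_le_exp.2 ?_
    linarith [mul_nonneg hε.le (show (0 : ℝ) ≤ 23 by norm_num)]
  · obtain ⟨-, h1⟩ := log_Gammaℝ_sub_bounds (u := 1 - ε) (v := 2 + ε) (by linarith) (by linarith)
      (by linarith) y
    rw [norm_inv, ← Real.exp_log (pos (show 0 < 1 - ε by linarith)),
      ← Real.exp_log (pos (show 0 < 2 + ε by linarith)), ← Real.exp_neg, ← Real.exp_add,
      Real.rpow_def_of_pos hP, ← Real.exp_add]
    refine Real.exp_le_exp.2 ?_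
    linarith [mul_le_mul_of_nonneg_left hε1 (show (0 : ℝ) ≤ 20 by norm_num)]

end FA.DedekindConvexity

end
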