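import Fermat.Agent.DedekindConvexity.Gamma
import Fermat.Agent.DedekindZeroCount.Main
import Mathlib.Analysis.Complex.Hadamard

/-!
# Rademacher's convexity bound for Dedekind zeta functions

The two edges `re s = -ε, 1 + ε` and the theorem of the three lines for `E s exp (n (s - i t)²)`
give `|E (σ + i t)| ≤ Y ^ n (|t| + 3) (|d| (|t| + 3) ^ n) ^ ((1 + ε - σ)/2)`.
-/

set_option autoImplicit false
set_option linter.style.haveILetI false

noncomputable section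

universe u

open NumberField InfinitePlace Module Complex Filter Topology Set
open FA.HeckeBS FA.HeckeFE FA.FamilyZeroDensity FA.DedekindZeroCount
open Complex.HadamardThreeLines
open FA.DedekindZF (ginv mul_cleared_eq norm_natAbs_cpow eulerConst_nonneg norm_Gammaℝ_conj)
open scoped Real Classical

namespace FA.DedekindConvexity

variable (K : Type u) [Field K] [NumberField K]

/-- The bound `d (|y| + 3) ^ n`. -/
def conductorAt (y : ℝ) : ℝ := ((discr K).natAbs : ℝ) * (|y| + 3) ^ finrank ℚ K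

theorem conductorAt_pos (y : ℝ) : 0 < conductorAt K y :=
  mul_pos (Nat.cast_pos.2 (Int.natAbs_pos.2 (discr_ne_zero K))) (pow_pos (by positivity) _)

theorem norm_cleared_right {ε : ℝ} (hε : 0 < ε) (hε1 : ε ≤ 1 / 4) (y : ℝ) :
    ‖cleared K (pt (1 + ε) y)‖ ≤
      Real.exp (finrank ℚ K * eulerConst (1 + ε)) * (|y| + 3) := by
  have hre : 1 < (pt (1 + ε) y).re := by rw [pt_re]; linarith
  have hz := (norm_dedekindZeta_bounds (K := K) hre).2
  rw [pt_re] at hz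
  rw [cleared_spec K hre, norm_mul, mul_comm]
  refine mul_le_mul hz ?_ (norm_nonneg _) (Real.exp_pos _).le
  refine (Complex.norm_le_abs_re_add_abs_im _).trans ?_
  simp [abs_of_pos hε]
  linarith

theorem norm_cleared_left {ε : ℝ} (hε : 0 < ε) (hε1 : ε ≤ 1 / 4) (y : ℝ) :
    ‖cleared K (pt (-ε) y)‖ ≤ Real.exp (finrank ℚ K * (eulerConst (1 + ε) + 20)) * (|y| + 3) *
      conductorAt K y ^ (1 / 2 + ε) := by
  obtain ⟨z, hz⟩ : ∃ z, z = pt (-ε) y := ⟨_, rfl⟩
  have hzre : z.re = -ε := by rw [hz, pt_re]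
  have hzim : z.im = y := by rw [hz, pt_im]
  rw [← hz]
  have hz0 : z ≠ 0 := fun h => by rw [h] at hzre; simp at hzre; linarith
  have hre : 1 < (1 - z).re := by rw [sub_re, one_re, hzre]; linarith
  have h := congrArg norm
    (mul_cleared_eq K (differentiable_cleared K) (fun s hs => cleared_spec K hs) z)
  rw [← xiFun_one_sub, xiFun_half K hre, gamFac, ginv, ← Gammaℝ_mul_Gammaℝ_add_one, norm_mul] at h
  simp only [norm_mul, norm_pow, norm_natAbs_cpow, show ‖1 - z - 1‖ = ‖z‖ by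
    rw [show 1 - z - 1 = -z by ring, norm_neg]] at h
  have hz' := (norm_dedekindZeta_bounds (K := K) hre).2
  rw [show (1 - z).re = 1 + ε by rw [sub_re, one_re, hzre]; ring] at hz'
  have c1 : ‖Gammaℝ (1 - z)‖ = ‖Gammaℝ (pt (1 + ε) y)‖ := by
    rw [← norm_Gammaℝ_conj]
    congr 2
    apply Complex.ext <;> simp [hz]
  have c2 : ‖Gammaℝ (1 - z + 1)‖ = ‖Gammaℝ (pt (2 + ε) y)‖ := by
    rw [← norm_Gammaℝ_conj]
    congr 2
    apply Complex.ext <;> simp [hz]
    ring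
  have c3 : z + 1 = pt (1 - ε) y := by
    apply Complex.ext <;> simp [hz]
    ring
  rw [c1, c2, c3] at h
  obtain ⟨r1, r2⟩ := Gammaℝ_ratio_bounds hε hε1 y
  rw [← hz] at r1
  obtain ⟨a, ha⟩ : ∃ a, a = ‖Gammaℝ (pt (1 + ε) y)‖ := ⟨_, rfl⟩
  obtain ⟨a', ha'⟩ : ∃ a', a' = ‖(Gammaℝ z)⁻¹‖ := ⟨_, rfl⟩
  obtain ⟨b, hb⟩ : ∃ b, b = ‖Gammaℝ (pt (2 + ε) y)‖ := ⟨_, rfl⟩
  obtain ⟨b', hb'⟩ : ∃ b', b' = ‖(Gammaℝ (pt (1 - ε) y))⁻¹‖ := ⟨_, rfl⟩
  obtain ⟨d, hd⟩ : ∃ d : ℝ, d = (((discr K).natAbs : ℕ) : ℝ) := ⟨_, rfl⟩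
  rw [← ha, ← ha', ← hb, ← hb', ← hd] at h
  rw [← ha, ← ha'] at r1
  rw [← hb, ← hb'] at r2
  have a0 : 0 ≤ a := ha ▸ norm_nonneg _
  have a0' : 0 ≤ a' := ha' ▸ norm_nonneg _
  have b0 : 0 ≤ b := hb ▸ norm_nonneg _
  have b0' : 0 ≤ b' := hb' ▸ norm_nonneg _
  have hd0 : 0 < d := hd ▸ Nat.cast_pos.2 (Int.natAbs_pos.2 (discr_ne_zero K))
  have hzn : 0 < ‖z‖ := norm_pos_iff.2 hz0
  have hE : ‖cleared K z‖ = ‖1 - z‖ * (d ^ ((1 - z) / 2).re * d ^ (-(z / 2)).re) *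
      ((a * a') ^ nrRealPlaces K * ((a * a') * (b * b')) ^ nrComplexPlaces K) *
        ‖dedekindZeta K (1 - z)‖ := by
    refine mul_left_cancel₀ hzn.ne' (h.trans ?_)
    simp only [mul_pow]
    ring
  have hdp : d ^ ((1 - z) / 2).re * d ^ (-(z / 2)).re = d ^ (1 / 2 + ε) := by
    rw [← Real.rpow_add hd0, neg_re, Complex.div_ofNat_re, Complex.div_ofNat_re, sub_re, one_re,
      hzre]
    congr 1
    ring
  obtain ⟨R, hR⟩ : ∃ R, R = Real.exp 20 * (|y| + 3) ^ (1 / 2 + ε) := ⟨_, rfl⟩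
  rw [← hR] at r1 r2
  have hR0 : 0 ≤ R := hR ▸ by positivity
  have hG : (a * a') ^ nrRealPlaces K * ((a * a') * (b * b')) ^ nrComplexPlaces K ≤
      R ^ finrank ℚ K := by
    calc (a * a') ^ nrRealPlaces K * ((a * a') * (b * b')) ^ nrComplexPlaces K
        ≤ R ^ nrRealPlaces K * (R * R) ^ nrComplexPlaces K := by gcongr
      _ = _ := by
          rw [← sq, ← pow_mul, ← pow_add, ← card_add_two_mul_card_eq_rank K]
  have h1z : ‖1 - z‖ ≤ |y| + 3 := by
    refine (Complex.norm_le_abs_re_add_abs_im _).trans ?_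
    rw [sub_re, one_re, hzre, sub_im, one_im, zero_sub, hzim, abs_neg, sub_neg_eq_add,
      abs_of_pos (by linarith : 0 < 1 + ε)]
    linarith
  rw [hE, hdp]
  refine (mul_le_mul (mul_le_mul (mul_le_mul_of_nonneg_right h1z (by positivity)) hG (by positivity)
    (by positivity)) hz' (norm_nonneg _) (by positivity)).trans (le_of_eq ?_)
  rw [conductorAt, ← hd, Real.mul_rpow hd0.le (by positivity), hR, mul_pow, ← Real.exp_nat_mul,
    ← Real.rpow_natCast ((|y| + 3) ^ (1 / 2 + ε)), ← Real.rpow_natCast (|y| + 3),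
    ← Real.rpow_mul (by positivity), ← Real.rpow_mul (by positivity),
    mul_comm (1 / 2 + ε), mul_add (finrank ℚ K : ℝ) (eulerConst _) 20, Real.exp_add]
  ring

theorem height_le (z : ℂ) : FA.DedekindZF.height K z.im ≤
    1 + Real.log (((discr K).natAbs : ℕ) : ℝ) + finrank ℚ K * (|z.im| + 2) := by
  rw [FA.DedekindZF.height]
  have h := mul_le_mul_of_nonneg_left
    ((Real.log_le_sub_one_of_pos (show 0 < |z.im| + 3 by positivity)).trans_eq (by ring))
    (Nat.cast_nonneg (α := ℝ) (finrank ℚ K)) (b := Real.log (|z.im| + 3)) (c := |z.im| + 2)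
  linarith

/-- `E s exp (n (s - i t) ^ 2)`. -/
def gaussZeta (t : ℝ) (s : ℂ) : ℂ :=
  cleared K s * Complex.exp ((finrank ℚ K : ℂ) * (s - t * I) ^ 2)

theorem norm_gaussZeta (t : ℝ) (s : ℂ) :
    ‖gaussZeta K t s‖ =
      ‖cleared K s‖ * Real.exp ((finrank ℚ K : ℝ) * (s.re ^ 2 - (s.im - t) ^ 2)) := by
  rw [gaussZeta, norm_mul, Complex.norm_exp, sq (s - t * I), ← Complex.ofReal_natCast,
    Complex.re_ofReal_mul, Complex.mul_re]
  simp [sq]

theorem bddAbove_gaussZeta (t : ℝ) {l u : ℝ} (hl : -4 ≤ l) (hu : u ≤ 5) :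
    BddAbove ((norm ∘ gaussZeta K t) '' verticalClosedStrip l u) := by
  obtain ⟨n, hn⟩ : ∃ n : ℝ, n = (finrank ℚ K : ℝ) := ⟨_, rfl⟩
  obtain ⟨A, hA⟩ : ∃ A, A = FA.DedekindZF.growA := ⟨_, rfl⟩
  have hn1 : 1 ≤ n := hn ▸ Nat.one_le_cast.2 finrank_pos
  refine ⟨Real.exp (|A| * (1 + Real.log (((discr K).natAbs : ℕ) : ℝ) + n * (|t| + 2)) +
    25 * n + n * |A| ^ 2), ?_⟩
  rintro _ ⟨z, hz, rfl⟩
  have hz' : z.re ∈ Icc (-4) 5 := ⟨hl.trans hz.1, hz.2.trans hu⟩
  simp only [Function.comp_apply]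
  rw [norm_gaussZeta, ← hn]
  refine (mul_le_mul_of_nonneg_right (norm_cleared_le_exp K hz') (Real.exp_pos _).le).trans ?_
  rw [← hA, ← Real.exp_add]
  refine Real.exp_le_exp.2 ?_
  have hh0 : 0 ≤ FA.DedekindZF.height K z.im :=
    zero_le_one.trans (FA.DedekindZF.one_le_height K z.im)
  have h1 := mul_le_mul (le_abs_self A) (height_le K z) hh0 (abs_nonneg A)
  rw [← hn] at h1
  obtain ⟨w, hw⟩ : ∃ w, w = |z.im - t| := ⟨_, rfl⟩
  have hw2 : (z.im - t) ^ 2 = w ^ 2 := by rw [hw, sq_abs]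
  have him : |z.im| ≤ |t| + w := by
    have := abs_sub_abs_le_abs_sub z.im t
    linarith
  have hre : z.re ^ 2 ≤ 25 := by nlinarith [hz'.1, hz'.2]
  rw [hw2]
  linarith [mul_le_mul_of_nonneg_left him (mul_nonneg (abs_nonneg A) (show 0 ≤ n by linarith)),
    mul_le_mul_of_nonneg_left hre (show 0 ≤ n by linarith),
    mul_nonneg (show 0 ≤ n by linarith) (sq_nonneg (w - |A| / 2)),
    mul_nonneg (show 0 ≤ n by linarith) (sq_nonneg |A|)]

theorem shift_bound {t y : ℝ} : |y| + 3 ≤ (|t| + 3) * Real.exp |y - t| := by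
  have h1 := abs_sub_abs_le_abs_sub y t
  have h2 := mul_le_mul_of_nonneg_left (Real.add_one_le_exp |y - t|)
    (show 0 ≤ |t| + 3 by positivity)
  nlinarith [abs_nonneg t, abs_nonneg (y - t)]

/-- **Rademacher's bound.** -/
theorem norm_cleared_convexity {ε : ℝ} (hε : 0 < ε) (hε1 : ε ≤ 1 / 4) {σ : ℝ} (h0 : -ε ≤ σ)
    (h1 : σ ≤ 1 + ε) (t : ℝ) :
    ‖cleared K (pt σ t)‖ ≤ Real.exp (eulerConst (1 + ε) + 25) ^ finrank ℚ K * (|t| + 3) *
      conductorAt K t ^ ((1 + ε - σ) / 2) := by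
  obtain ⟨n, hn⟩ : ∃ n : ℝ, n = (finrank ℚ K : ℝ) := ⟨_, rfl⟩
  have hn1 : 1 ≤ n := hn ▸ Nat.one_le_cast.2 finrank_pos
  obtain ⟨Y, hY⟩ : ∃ Y, Y = Real.exp (eulerConst (1 + ε) + 25) ^ finrank ℚ K := ⟨_, rfl⟩
  rw [← hY]
  have hY' : Y = Real.exp (n * (eulerConst (1 + ε) + 25)) := by
    rw [hY, ← Real.exp_nat_mul, hn]
  have hec := eulerConst_nonneg (1 + ε)
  have hP : 0 < |t| + 3 := by positivity
  have hC0 := conductorAt_pos K t
  have hshift : ∀ y, (|y| + 3) ≤ (|t| + 3) * Real.exp |y - t| := fun y => shift_bound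
  have hgauss : ∀ y, (2 : ℝ) * n * |y - t| - n * (y - t) ^ 2 ≤ n := fun y => by
    rw [← sq_abs (y - t)]
    linarith [mul_nonneg (show 0 ≤ n by linarith) (sq_nonneg (|y - t| - 1))]
  have ha : ∀ z ∈ re ⁻¹' ({-ε} : Set ℝ), ‖gaussZeta K t z‖ ≤
      Y * (|t| + 3) * conductorAt K t ^ (1 / 2 + ε) := fun z hz => by
    obtain ⟨y, rfl⟩ : ∃ y, z = pt (-ε) y := ⟨z.im, Complex.ext (by simpa using hz) (by simp)⟩
    rw [norm_gaussZeta, pt_re, pt_im, ← hn]
    refine (mul_le_mul_of_nonneg_right (norm_cleared_left K hε hε1 y) (Real.exp_pos _).le).trans ?_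
    rw [← hn]
    have hcond : conductorAt K y ^ (1 / 2 + ε) ≤
        conductorAt K t ^ (1 / 2 + ε) * Real.exp (n * |y - t|) := by
      have h2 : conductorAt K y ≤ conductorAt K t * Real.exp (n * |y - t|) := by
        rw [conductorAt, conductorAt, mul_assoc, hn, Real.exp_nat_mul, ← mul_pow]
        exact mul_le_mul_of_nonneg_left (pow_le_pow_left₀ (by positivity) (hshift y) _)
          (Nat.cast_nonneg _)
      refine (Real.rpow_le_rpow (conductorAt_pos K y).le h2 (by linarith)).trans ?_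
      rw [Real.mul_rpow hC0.le (Real.exp_pos _).le, ← Real.exp_mul]
      refine mul_le_mul_of_nonneg_left (Real.exp_le_exp.2 ?_) (Real.rpow_nonneg hC0.le _)
      exact mul_le_of_le_one_right (by positivity) (by linarith)
    refine (mul_le_mul_of_nonneg_right (mul_le_mul (mul_le_mul_of_nonneg_left (hshift y)
      (Real.exp_pos _).le) hcond (Real.rpow_nonneg (conductorAt_pos K y).le _) (by positivity))
      (Real.exp_pos _).le).trans ?_
    rw [show Real.exp (n * (eulerConst (1 + ε) + 20)) * ((|t| + 3) * Real.exp |y - t|) *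
        (conductorAt K t ^ (1 / 2 + ε) * Real.exp (n * |y - t|)) *
        Real.exp (n * ((-ε) ^ 2 - (y - t) ^ 2)) =
        Real.exp (n * (eulerConst (1 + ε) + 20) + |y - t| + n * |y - t| +
          n * ((-ε) ^ 2 - (y - t) ^ 2)) * ((|t| + 3) * conductorAt K t ^ (1 / 2 + ε)) by
      rw [Real.exp_add, Real.exp_add, Real.exp_add]; ring, mul_assoc Y, hY']
    refine mul_le_mul_of_nonneg_right (Real.exp_le_exp.2 ?_) (by positivity)
    have hv := le_mul_of_one_le_left (abs_nonneg (y - t)) hn1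
    have he2 := mul_le_mul_of_nonneg_left (show ε ^ 2 ≤ 4 by nlinarith)
      (show 0 ≤ n by linarith)
    linarith [hgauss y]
  have hb : ∀ z ∈ re ⁻¹' ({1 + ε} : Set ℝ), ‖gaussZeta K t z‖ ≤ Y * (|t| + 3) := fun z hz => by
    obtain ⟨y, rfl⟩ : ∃ y, z = pt (1 + ε) y := ⟨z.im, Complex.ext (by simpa using hz) (by simp)⟩
    rw [norm_gaussZeta, pt_re, pt_im, ← hn]
    refine (mul_le_mul_of_nonneg_right (norm_cleared_right K hε hε1 y) (Real.exp_pos _).le).trans ?_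
    rw [← hn]
    refine (mul_le_mul_of_nonneg_right (mul_le_mul_of_nonneg_left (hshift y) (Real.exp_pos _).le)
      (Real.exp_pos _).le).trans ?_
    rw [show Real.exp (n * eulerConst (1 + ε)) * ((|t| + 3) * Real.exp |y - t|) *
        Real.exp (n * ((1 + ε) ^ 2 - (y - t) ^ 2)) =
        Real.exp (n * eulerConst (1 + ε) + |y - t| + n * ((1 + ε) ^ 2 - (y - t) ^ 2)) *
          (|t| + 3) by rw [Real.exp_add, Real.exp_add]; ring, hY']
    refine mul_le_mul_of_nonneg_right (Real.exp_le_exp.2 ?_) hP.le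
    have hv := le_mul_of_one_le_left (abs_nonneg (y - t)) hn1
    have he2 := mul_le_mul_of_nonneg_left (show (1 + ε) ^ 2 ≤ 4 by nlinarith)
      (show 0 ≤ n by linarith)
    linarith [hgauss y, mul_nonneg (show 0 ≤ n by linarith) (abs_nonneg (y - t))]
  have hd : DiffContOnCl ℂ (gaussZeta K t) (verticalStrip (-ε) (1 + ε)) := by
    refine Differentiable.diffContOnCl ?_
    unfold gaussZeta
    exact (differentiable_cleared K).mul (by fun_prop)
  have h := norm_le_interp_of_mem_verticalClosedStrip' (f := gaussZeta K t) (z := pt σ t)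
    (by linarith : -ε < 1 + ε) ⟨by rw [pt_re]; exact h0, by rw [pt_re]; exact h1⟩ hd
    (bddAbove_gaussZeta K t (by linarith) (by linarith)) ha hb
  refine le_trans ?_ (h.trans (le_of_eq ?_))
  · rw [norm_gaussZeta, pt_re, pt_im, sub_self]
    refine le_mul_of_one_le_right (norm_nonneg _) (Real.one_le_exp (mul_nonneg ?_ ?_))
    · exact Nat.cast_nonneg _
    · simp [sq_nonneg]
  rw [pt_re]
  obtain ⟨θ, hθ⟩ : ∃ θ, θ = (σ - -ε) / (1 + ε - -ε) := ⟨_, rfl⟩
  rw [← hθ]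
  have hY0 : 0 < Y * (|t| + 3) := mul_pos (hY' ▸ Real.exp_pos _) hP
  rw [Real.mul_rpow hY0.le (Real.rpow_nonneg hC0.le _), mul_right_comm, ← Real.rpow_add hY0,
    sub_add_cancel, Real.rpow_one, ← Real.rpow_mul hC0.le]
  congr 2
  have hne : 1 + 2 * ε ≠ 0 := by linarith
  rw [hθ, show 1 + ε - -ε = 1 + 2 * ε by ring]
  field_simp
  ring

end FA.DedekindConvexity

end
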